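import Mathlib
import Fermat.Agent.LT.T7.H140.DownBasisQSpec
import Fermat.Agent.LT.T7.H128.CuspForm

/-!
# Row LT, tower T7, leaf T7.L2Q.3.7.1 `SDQ140.CuspFormQC` (helper122)

OFF-MAIN.  `cuspFormQC122 n : Fermat.Agent.LT.T7.SDQ140.CuspFormQC n` for BOTH weights
(`n = w0`, `n = w1`), VERBATIM against `LT/T7/H140/DownBasisQSpec.lean`
(helper140@281c6f596, sha256 `ccac08d3…`), unconditional.

The proof is the proof of `SD534.CuspFormC` of helper128 (`LT/T7/H128/CuspForm.lean`, byte
copy) with the `K_∞`-type as a parameter: the two lemmas `integrable_mul_conj128` and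
`eq_zero_of_ae_frame128` do not see the type (a cusp function of any type is continuous,
bounded, left invariant under `GL₂(ℚ)` and right invariant under the ray generator); the
general statement is `cuspForm_typed122` (every number field, every type `τ`).
-/

set_option autoImplicit false
set_option linter.unusedSectionVars false
set_option linter.unusedVariables false

open IsDedekindDomain NumberField MeasureTheory
open scoped ComplexConjugate
open Fermat.Agent.LT.H556.A0 Fermat.Agent.LT.T5 Fermat.Agent.LT.T5.H277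

noncomputable section

namespace Fermat.Agent.LT.T7.H122

open Fermat.Agent.LT.T7.H128

attribute [local instance] Fermat.Agent.LT.T5.instMeasurableSpaceG

section General

variable {K : Type} [Field K] [NumberField K]

/-- The seven clauses for the cusp functions of an arbitrary `K_∞`-type `τ`. -/
theorem cuspForm_typed122 (τ : G K → ℂ) (μ : Measure (G K)) (F : Set (G K)) (r : G K)
    (𝔫 : Ideal (𝓞 K)) (hF : T5.IsFrame μ F) (hr : T5.IsRayGen r) :
    (∀ f f' f'' : G K → ℂ, T5.IsCuspFn 𝔫 τ r f → T5.IsCuspFn 𝔫 τ r f' →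
      T5.IsCuspFn 𝔫 τ r f'' →
      T5.innerD μ F (f + f') f'' = T5.innerD μ F f f'' + T5.innerD μ F f' f'') ∧
    (∀ (a : ℂ) (f f' : G K → ℂ), T5.IsCuspFn 𝔫 τ r f → T5.IsCuspFn 𝔫 τ r f' →
      T5.innerD μ F (a • f) f' = a * T5.innerD μ F f f') ∧
    (∀ f f' : G K → ℂ, T5.IsCuspFn 𝔫 τ r f → T5.IsCuspFn 𝔫 τ r f' →
      T5.innerD μ F f' f = conj (T5.innerD μ F f f')) ∧
    (∀ f : G K → ℂ, T5.IsCuspFn 𝔫 τ r f → 0 ≤ (T5.innerD μ F f f).re) ∧
    (∀ f : G K → ℂ, T5.IsCuspFn 𝔫 τ r f → T5.innerD μ F f f = 0 → f = 0) ∧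
    (∀ φ f f' : G K → ℂ, T5.IsTestFn 𝔫 τ φ → T5.IsCuspFn 𝔫 τ r f → T5.IsCuspFn 𝔫 τ r f' →
      T5.Rconv μ φ (f + f') = T5.Rconv μ φ f + T5.Rconv μ φ f') ∧
    (∀ (φ : G K → ℂ) (a : ℂ) (f : G K → ℂ), T5.IsTestFn 𝔫 τ φ → T5.IsCuspFn 𝔫 τ r f →
      T5.Rconv μ φ (a • f) = a • T5.Rconv μ φ f) := by
  have hB : BorelSpace (G K) := borelSpaceG277
  have hH := hF.haar
  have hfin : IsFiniteMeasure (μ.restrict F) := ⟨by simpa using hF.finite⟩
  have hI : ∀ f f' : G K → ℂ, T5.IsCuspFn 𝔫 τ r f → T5.IsCuspFn 𝔫 τ r f' →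
      Integrable (fun x => f x * conj (f' x)) (μ.restrict F) :=
    fun f f' hf hf' => integrable_mul_conj128 hF hf.cont hf'.cont hf.bdd hf'.bdd
  refine ⟨?_, ?_, ?_, ?_, ?_, ?_, ?_⟩
  · -- add_left
    intro f f' f'' hf hf' hf''
    unfold T5.innerD
    rw [← integral_add (hI f f'' hf hf'') (hI f' f'' hf' hf'')]
    refine integral_congr_ae (Filter.Eventually.of_forall fun x => ?_)
    simp only [Pi.add_apply]
    ring
  · -- smul_left
    intro a f f' _ _
    unfold T5.innerD
    rw [← integral_const_mul]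
    refine integral_congr_ae (Filter.Eventually.of_forall fun x => ?_)
    simp only [Pi.smul_apply, smul_eq_mul]
    ring
  · -- conj_symm
    intro f f' _ _
    unfold T5.innerD
    rw [← integral_conj]
    refine integral_congr_ae (Filter.Eventually.of_forall fun x => ?_)
    simp only [map_mul, Complex.conj_conj]
    ring
  · -- nonneg
    intro f _
    unfold T5.innerD
    have e : (fun x => f x * conj (f x)) = fun x => ((‖f x‖ ^ 2 : ℝ) : ℂ) := by
      funext x
      rw [RCLike.mul_conj]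
      norm_cast
    rw [e]
    have e2 : (∫ x in F, ((‖f x‖ ^ 2 : ℝ) : ℂ) ∂μ) = ((∫ x in F, ‖f x‖ ^ 2 ∂μ : ℝ) : ℂ) :=
      integral_ofReal
    rw [e2, Complex.ofReal_re]
    exact integral_nonneg fun x => by positivity
  · -- definite
    intro f hf h0
    unfold T5.innerD at h0
    have e : (fun x => f x * conj (f x)) = fun x => ((‖f x‖ ^ 2 : ℝ) : ℂ) := by
      funext x
      rw [RCLike.mul_conj]
      norm_cast
    rw [e] at h0
    have e2 : (∫ x in F, ((‖f x‖ ^ 2 : ℝ) : ℂ) ∂μ) = ((∫ x in F, ‖f x‖ ^ 2 ∂μ : ℝ) : ℂ) :=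
      integral_ofReal
    rw [e2] at h0
    have h1 : ∫ x in F, ‖f x‖ ^ 2 ∂μ = 0 := by exact_mod_cast h0
    have hint : Integrable (fun x => ‖f x‖ ^ 2) (μ.restrict F) := by
      obtain ⟨C, hC⟩ := hf.bdd
      refine Integrable.of_bound (hf.cont.norm.pow 2).aestronglyMeasurable (C ^ 2)
        (Filter.Eventually.of_forall fun x => ?_)
      rw [Real.norm_eq_abs, abs_of_nonneg (by positivity)]
      exact pow_le_pow_left₀ (norm_nonneg _) (hC x) 2
    have h2 := (integral_eq_zero_iff_of_nonneg (fun x => by positivity) hint).1 h1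
    have h3 : μ ({x | f x ≠ 0} ∩ F) = 0 := by
      have h4 : (μ.restrict F) {x | f x ≠ 0} = 0 := by
        rw [Filter.EventuallyEq, ae_iff] at h2
        refine measure_mono_null ?_ h2
        intro x hx
        simp only [Set.mem_ofPred_eq, Pi.zero_apply] at hx ⊢
        intro h5
        exact hx (by simpa using h5)
      rwa [Measure.restrict_apply' hF.meas] at h4
    exact eq_zero_of_ae_frame128 hF hr hf.cont hf.aut.left_inv hf.aut.ray h3
  · -- conv_add
    intro φ f f' hφ hf hf'
    funext x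
    unfold T5.Rconv
    have hi : ∀ e : G K → ℂ, Continuous e → Integrable (fun y => φ y * e (x * y)) μ := by
      intro e he
      exact (hφ.cont.mul
        (he.comp (continuous_const.mul continuous_id))).integrable_of_hasCompactSupport
        hφ.supp.mul_right
    simp only [Pi.add_apply]
    rw [← integral_add (hi f hf.cont) (hi f' hf'.cont)]
    refine integral_congr_ae (Filter.Eventually.of_forall fun y => ?_)
    simp only
    ring
  · -- conv_smul
    intro φ a f _ _
    funext x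
    unfold T5.Rconv
    simp only [Pi.smul_apply, smul_eq_mul]
    rw [← integral_const_mul]
    refine integral_congr_ae (Filter.Eventually.of_forall fun y => ?_)
    simp only
    ring

end General

/-- **T7.L2Q.3.7.1 `CuspFormQC n`**, VERBATIM, both weights. -/
theorem cuspFormQC122 (n : Fermat.Agent.LT.T7.L2Q.QWt) :
    Fermat.Agent.LT.T7.SDQ140.CuspFormQC n := by
  intro μ F r 𝔫 _ _ hF hr
  obtain ⟨h1, h2, h3, h4, h5, h6, h7⟩ := cuspForm_typed122 (K := ℚ) n.type μ F r 𝔫 hF hr
  exact ⟨h1, h2, h3, h4, h5, h6, h7⟩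

example : Fermat.Agent.LT.T7.SDQ140.CuspFormQC Fermat.Agent.LT.T7.L2Q.QWt.w0 :=
  cuspFormQC122 _

example : Fermat.Agent.LT.T7.SDQ140.CuspFormQC Fermat.Agent.LT.T7.L2Q.QWt.w1 :=
  cuspFormQC122 _

end Fermat.Agent.LT.T7.H122

end
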