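import Mathlib
import Fermat.Agent.LT.T7.H621.ConjSpec

/-!
# Row LT, tower T7, sub-leaf T7.02.5 `ConjCuspC621` (helper122)

OFF-MAIN.  The vanishing of the constant term is transported along the adelic automorphism
`adeleEquiv930 s.symm`: the image of a Haar measure is a Haar measure, the image of a
fundamental domain of `K` is a fundamental domain of `K`, and the unipotent family is transported
to a unipotent family.
-/

set_option autoImplicit false
set_option linter.style.haveILetI false

open IsDedekindDomain NumberField AutomorphicForm MeasureTheory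
open scoped MatrixGroups

noncomputable section

namespace Fermat.Agent.LT.T7.H122

open Fermat.Agent.LT.H556 Fermat.Agent.LT.H556.A0 Fermat.Agent.LT.T1.H930
  Fermat.Agent.LT.T7.H621

variable {K : Type} [Field K] [NumberField K]

/-- The range of `K` in the adeles is stable under `adeleEquiv930 s`. -/
theorem mem_range_adeleEquiv122 (s : K ≃+* K) (a : Adl K) :
    a ∈ (algebraMap K (Adl K)).toAddMonoidHom.range ↔
      adeleEquiv930 s a ∈ (algebraMap K (Adl K)).toAddMonoidHom.range := by
  constructor
  · rintro ⟨k, rfl⟩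
    exact ⟨s k, (adeleEquiv930_algebraMap s k).symm⟩
  · rintro ⟨k, hk⟩
    refine ⟨s.symm k, ?_⟩
    have h1 : adeleEquiv930 s.symm (adeleEquiv930 s a) = a := adeleEquiv930_symm_apply_apply s a
    rw [← h1, ← hk]
    exact (adeleEquiv930_algebraMap s.symm k).symm

/-- The permutation of the range of `K` induced by `adeleEquiv930 s`. -/
def rangeEquiv122 (s : K ≃+* K) :
    (algebraMap K (Adl K)).toAddMonoidHom.range ≃ (algebraMap K (Adl K)).toAddMonoidHom.range :=
  Equiv.subtypeEquiv (adeleEquiv930 s).toEquiv (fun a => mem_range_adeleEquiv122 s a)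

theorem rangeEquiv122_coe (s : K ≃+* K) (k : (algebraMap K (Adl K)).toAddMonoidHom.range) :
    ((rangeEquiv122 s k : (algebraMap K (Adl K)).toAddMonoidHom.range) : Adl K)
      = adeleEquiv930 s (k : Adl K) := rfl

/-- The matrix of the transported unipotent element. -/
theorem conjG621_unip122 (s : K ≃+* K) (u : G K) (x : Adl K)
    (hu : (u : Matrix (Fin 2) (Fin 2) (Adl K)) = !![1, x; 0, 1]) :
    (conjG621 s u : Matrix (Fin 2) (Fin 2) (Adl K)) = !![1, adeleEquiv930 s x; 0, 1] := by
  ext i j
  rw [conjG621_apply, hu]
  fin_cases i <;> fin_cases j <;> simp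

/-- **T7.02.5 CUSP.** -/
theorem conjCuspC122 (K : Type) [Field K] [NumberField K] : ConjCuspC621 K := by
  intro s φ hφ
  letI : MeasurableSpace (Adl K) := borel (Adl K)
  haveI : BorelSpace (Adl K) := ⟨rfl⟩
  intro μ hμ D hD n hn g
  haveI := hμ
  -- the homeomorphism `e = s⁻¹` of the adeles, as a measurable equivalence
  let e : Adl K ≃ᵐ Adl K := (adeleHomeo930 (K := K) (L := K) s.symm).toMeasurableEquiv
  have he_apply : ∀ x : Adl K, e x = adeleEquiv930 s.symm x := fun x => rfl
  have he_symm_apply : ∀ x : Adl K, e.symm x = adeleEquiv930 s x := fun x => rfl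
  -- the transported measure is a Haar measure
  have hμ' : (μ.map e).IsAddHaarMeasure :=
    AddEquiv.isAddHaarMeasure_map μ ((adeleEquiv930 (K := K) (L := K) s.symm).toAddEquiv)
      (continuous_adeleEquiv930 s.symm) (continuous_adeleEquiv930 s)
  -- the transported fundamental domain
  have hmp : MeasurePreserving e.symm (μ.map e) μ := by
    refine ⟨e.symm.measurable, ?_⟩
    rw [Measure.map_map e.symm.measurable e.measurable]
    simp
  have hD' : IsAddFundamentalDomain ((algebraMap K (Adl K)).toAddMonoidHom.range) (e '' D)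
      (μ.map e) := by
    refine hD.image_of_equiv e.toEquiv hmp.quasiMeasurePreserving (rangeEquiv122 s) ?_
    intro k x
    show e ((rangeEquiv122 s k : (algebraMap K (Adl K)).toAddMonoidHom.range) +ᵥ x) = k +ᵥ e x
    rw [AddSubgroup.vadd_def, AddSubgroup.vadd_def, rangeEquiv122_coe, he_apply, he_apply,
      vadd_eq_add, vadd_eq_add, map_add, adeleEquiv930_symm_apply_apply]
  -- the transported unipotent family
  let n' : Adl K → G K := fun y => conjG621 s.symm (n (adeleEquiv930 s y))
  have hn' : ∀ y : Adl K, (n' y : Matrix (Fin 2) (Fin 2) (Adl K)) = !![1, y; 0, 1] := by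
    intro y
    show (conjG621 s.symm (n (adeleEquiv930 s y)) : Matrix (Fin 2) (Fin 2) (Adl K)) = _
    rw [conjG621_unip122 s.symm _ _ (hn _), adeleEquiv930_symm_apply_apply]
  have key := hφ (μ.map e) hμ' (e '' D) hD' n' hn' (conjG621 s.symm g)
  rw [setIntegral_map_equiv e, e.injective.preimage_image] at key
  rw [← key]
  refine setIntegral_congr_fun₀ hD.nullMeasurableSet ?_
  intro x _
  show φ (conjG621 s.symm (n x * g)) = φ (n' (e x) * conjG621 s.symm g)
  rw [map_mul]
  show _ = φ (conjG621 s.symm (n (adeleEquiv930 s (e x))) * conjG621 s.symm g)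
  rw [he_apply, adeleEquiv930_apply_symm_apply]

end Fermat.Agent.LT.T7.H122

end
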