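import Mathlib
import Fermat.Agent.LT.T7.H568.IdeleCoordSpec
import Fermat.Agent.LT.T7.H496.TwistNonzero

/-!
# Row LT, tower T7, leaf T7.14.6c.4b `HOpenC568` (helper122)

OFF-MAIN.  Proves `H568.HOpenC568 K` VERBATIM against
`LT/T7/H568/IdeleCoordSpec.lean` (helper568@fef45a303, sha256 `e8caee7a…`), for every number
field.

Route: `H = {y : y_f ∈ B, (y⁻¹)_f ∈ B, y_v - 1 ∈ closure 𝔪 (v ∈ S)}` with
`B = ∏ 𝒪_v` (open in the finite adeles, `RestrictedProduct.isOpen_forall_mem`); the closure of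
`𝔪 ≠ 0` in `K_v` is open (it contains a ball: `mem_idealClosure_of_le496`, and is closed under
addition); the maps `y ↦ y_f`, `y ↦ (y⁻¹)_f` and the evaluations are continuous.
-/

set_option autoImplicit false

open IsDedekindDomain NumberField Topology
open IsDedekindDomain.HeightOneSpectrum

noncomputable section

namespace Fermat.Agent.LT.T7.H122

open Fermat.Agent.LT.H556 Fermat.Agent.LT.H556.A0 Fermat.Agent.LT.T7 Fermat.Agent.LT.T7.Rigid
  Fermat.Agent.LT.T7.H568 Fermat.Agent.LT.T7.H496 Fermat.Agent.LT.H767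

variable {K : Type} [Field K] [NumberField K]

theorem idealClosure_add122 (𝔫 : Ideal (𝓞 K)) (v : HeightOneSpectrum (𝓞 K))
    {x y : v.adicCompletion K} (hx : x ∈ idealClosure 𝔫 v) (hy : y ∈ idealClosure 𝔫 v) :
    x + y ∈ idealClosure 𝔫 v := by
  unfold idealClosure at hx hy ⊢
  refine map_mem_closure₂ continuous_add hx hy ?_
  rintro _ ⟨a, ha, rfl⟩ _ ⟨b, hb, rfl⟩
  exact ⟨a + b, 𝔫.add_mem ha hb, by simp⟩

/-- The closure of a non-zero ideal in `K_v` is open. -/
theorem isOpen_idealClosure122 {𝔫 : Ideal (𝓞 K)} (h𝔫 : 𝔫 ≠ ⊥) (v : HeightOneSpectrum (𝓞 K)) :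
    IsOpen (idealClosure 𝔫 v) := by
  obtain ⟨d, hd, hd0⟩ := Submodule.exists_mem_ne_zero_of_ne_bot h𝔫
  have hD0 : imF496 v d ≠ 0 := imF496_ne_zero v hd0
  rw [Metric.isOpen_iff]
  intro x hx
  refine ⟨‖imF496 v d‖, norm_pos_iff.mpr hD0, fun y hy => ?_⟩
  rw [Metric.mem_ball, dist_eq_norm] at hy
  have hz : y - x ∈ idealClosure 𝔫 v :=
    mem_idealClosure_of_le496 𝔫 v hd hd0 _ (le_of_lt (Valued.toNormedField.norm_lt_iff.mp hy))
  have e : y = x + (y - x) := by ring
  rw [e]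
  exact idealClosure_add122 𝔫 v hx hz

/-- The closure of an ideal divisible by `v` lies in the maximal ideal of `𝒪_v`. -/
theorem valued_lt_one_of_mem_idealClosure122 {𝔫 : Ideal (𝓞 K)} {v : HeightOneSpectrum (𝓞 K)}
    (hv : v.asIdeal ∣ 𝔫) {u : v.adicCompletion K} (hu : u ∈ idealClosure 𝔫 v) :
    Valued.v u < 1 := by
  rw [idealClosure, Metric.mem_closure_iff] at hu
  obtain ⟨_, ⟨a, ha, rfl⟩, hdist⟩ := hu 1 one_pos
  rw [dist_eq_norm] at hdist
  have h1 : Valued.v (u - algebraMap K (v.adicCompletion K) (algebraMap (𝓞 K) K a)) < 1 :=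
    Valued.toNormedField.norm_lt_one_iff.mp hdist
  have h2 : Valued.v (algebraMap K (v.adicCompletion K) (algebraMap (𝓞 K) K a)) < 1 := by
    rw [valued_algebraMap]
    exact (valuation_lt_one_iff_mem v a).mpr (Ideal.le_of_dvd hv ha)
  have e : u = (u - algebraMap K (v.adicCompletion K) (algebraMap (𝓞 K) K a))
      + algebraMap K (v.adicCompletion K) (algebraMap (𝓞 K) K a) := by ring
  rw [e]
  exact lt_of_le_of_lt (Valuation.map_add _ _ _) (max_lt h1 h2)

theorem unit_inv_snd122 (y : (Adl K)ˣ) (v : HeightOneSpectrum (𝓞 K)) :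
    ((y⁻¹ : (Adl K)ˣ) : Adl K).2 v = ((y : Adl K).2 v)⁻¹ := by
  have h1 : ((y : Adl K) * ((y⁻¹ : (Adl K)ˣ) : Adl K)).2 v = (1 : Adl K).2 v := by
    rw [Units.mul_inv]
  have h2 : ((y : Adl K) * ((y⁻¹ : (Adl K)ˣ) : Adl K)).2 v
      = (y : Adl K).2 v * ((y⁻¹ : (Adl K)ˣ) : Adl K).2 v := rfl
  have h3 : (1 : Adl K).2 v = 1 := rfl
  rw [h2, h3] at h1
  exact eq_inv_of_mul_eq_one_right h1

/-- The description of `H` by open conditions. -/
theorem mem_hSub_iff122 (S : Finset (HeightOneSpectrum (𝓞 K))) (𝔪 : Ideal (𝓞 K))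
    (hS : IsSupp S 𝔪) (y : (Adl K)ˣ) :
    y ∈ hSub568 S 𝔪 ↔
      (∀ v : HeightOneSpectrum (𝓞 K), (y : Adl K).2 v ∈ v.adicCompletionIntegers K) ∧
      (∀ v : HeightOneSpectrum (𝓞 K),
        ((y⁻¹ : (Adl K)ˣ) : Adl K).2 v ∈ v.adicCompletionIntegers K) ∧
      ∀ v ∈ S, (y : Adl K).2 v - 1 ∈ idealClosure 𝔪 v := by
  have h1S : ∀ v : HeightOneSpectrum (𝓞 K), ((1 : (Adl K)ˣ) : Adl K).2 v = 1 := fun v => rfl
  constructor
  · rintro ⟨hcell, hord⟩
    have hval : ∀ v : HeightOneSpectrum (𝓞 K), Valued.v ((y : Adl K).2 v) = 1 := by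
      intro v
      by_cases hv : v ∈ S
      · obtain ⟨u, hu, hy⟩ := hcell v hv
        rw [hy, h1S, one_mul]
        exact Valuation.map_one_add_of_lt _
          (valued_lt_one_of_mem_idealClosure122 ((hS.2 v).2 hv) hu)
      · have h0 := hord v hv
        unfold ordI at h0
        have hne : Valued.v ((y : Adl K).2 v) ≠ 0 :=
          (Valuation.ne_zero_iff _).2 (unit_snd_ne_zero568 y v)
        have h0' : WithZero.log (Valued.v ((y : Adl K).2 v)) = 0 := neg_eq_zero.mp h0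
        rw [← WithZero.exp_log hne, h0']
        rfl
    refine ⟨fun v => ?_, fun v => ?_, fun v hv => ?_⟩
    · rw [HeightOneSpectrum.mem_adicCompletionIntegers, hval v]
    · rw [HeightOneSpectrum.mem_adicCompletionIntegers, unit_inv_snd122, map_inv₀, hval v,
        inv_one]
    · obtain ⟨u, hu, hy⟩ := hcell v hv
      rw [hy, h1S, one_mul, add_sub_cancel_left]
      exact hu
  · rintro ⟨hA, hB, hC⟩
    refine ⟨fun v hv => ⟨(y : Adl K).2 v - 1, hC v hv, ?_⟩, fun v _ => ?_⟩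
    · rw [h1S, one_mul, add_sub_cancel]
    · have h1 : Valued.v ((y : Adl K).2 v) ≤ 1 :=
        (HeightOneSpectrum.mem_adicCompletionIntegers _ _ _).1 (hA v)
      have h2 : Valued.v (((y⁻¹ : (Adl K)ˣ) : Adl K).2 v) ≤ 1 :=
        (HeightOneSpectrum.mem_adicCompletionIntegers _ _ _).1 (hB v)
      rw [unit_inv_snd122, map_inv₀] at h2
      have hne : Valued.v ((y : Adl K).2 v) ≠ 0 :=
        (Valuation.ne_zero_iff _).2 (unit_snd_ne_zero568 y v)
      have h3 : 1 ≤ Valued.v ((y : Adl K).2 v) := by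
        have := (inv_le_one₀ (zero_lt_iff.2 hne)).1 h2
        exact this
      have h4 : Valued.v ((y : Adl K).2 v) = 1 := le_antisymm h1 h3
      unfold ordI
      rw [h4, WithZero.log_one, neg_zero]

/-- **T7.14.6c.4b H-OPEN**, VERBATIM. -/
theorem hOpenC122 (K : Type) [Field K] [NumberField K] : HOpenC568 K := by
  intro S 𝔪 hS
  have hBopen : IsOpen {f : FiniteAdeleRing (𝓞 K) K |
      ∀ v : HeightOneSpectrum (𝓞 K), f v ∈ v.adicCompletionIntegers K} :=
    RestrictedProduct.isOpen_forall_mem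
      (fun v => Valued.isOpen_valuationSubring (v.adicCompletion K))
  have hc1 : Continuous fun y : (Adl K)ˣ => (y : Adl K).2 :=
    continuous_snd.comp Units.continuous_val
  have hc2 : Continuous fun y : (Adl K)ˣ => ((y⁻¹ : (Adl K)ˣ) : Adl K).2 :=
    continuous_snd.comp Units.continuous_coe_inv
  have e : hSub568 S 𝔪
      = ((fun y : (Adl K)ˣ => (y : Adl K).2) ⁻¹' {f : FiniteAdeleRing (𝓞 K) K |
          ∀ v : HeightOneSpectrum (𝓞 K), f v ∈ v.adicCompletionIntegers K})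
        ∩ (((fun y : (Adl K)ˣ => ((y⁻¹ : (Adl K)ˣ) : Adl K).2) ⁻¹'
          {f : FiniteAdeleRing (𝓞 K) K |
            ∀ v : HeightOneSpectrum (𝓞 K), f v ∈ v.adicCompletionIntegers K})
        ∩ ⋂ v ∈ S, (fun y : (Adl K)ˣ => (y : Adl K).2 v - 1) ⁻¹' (idealClosure 𝔪 v)) := by
    ext y
    rw [mem_hSub_iff122 S 𝔪 hS y]
    simp only [Set.mem_inter_iff, Set.mem_preimage, Set.mem_ofPred_eq, Set.mem_iInter]
  rw [e]
  refine (hBopen.preimage hc1).inter ((hBopen.preimage hc2).inter ?_)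
  refine isOpen_biInter_finset (fun v _ => ?_)
  have hcv : Continuous fun y : (Adl K)ˣ => (y : Adl K).2 v - 1 :=
    ((RestrictedProduct.continuous_eval v).comp hc1).sub continuous_const
  exact (isOpen_idealClosure122 hS.1 v).preimage hcv

example (K : Type) [Field K] [NumberField K] : H568.HOpenC568 K := hOpenC122 K

end Fermat.Agent.LT.T7.H122

end
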