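import Mathlib
import Fermat.Agent.LT.T7.H568.IdeleSpec

/-!
# Row LT, tower T7, leaf T7.14.6c.3 `ArchIntC568` (helper122)

OFF-MAIN.  Proves `H568.ArchIntC568 K` VERBATIM against
`LT/T7/H568/IdeleSpec.lean` (helper568@4cfb36664, sha256 `ce2f0c61…`), for every number field.

Route (weight trick): `cosh u ≥ 1 + u²/4` gives `K₀(t) ≤ e^{-t} √(π/t)` for `t > 0`, hence
`K₀(c r)² / r · r² ≤ (π/c) e^{-2 c r}`; on the region `T ≤ ∏ r_w²` (all places complex), so the
integrand is at most `T⁻¹ ∏_w (π/c_w) e^{-2 c_w r_w} 1_{r_w > 0}`, a product of integrable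
functions of one variable.
-/

set_option autoImplicit false

open MeasureTheory NumberField Set

noncomputable section

namespace Fermat.Agent.LT.T7.H122

open Fermat.Agent.LT.T7 Fermat.Agent.LT.T7.Rigid Fermat.Agent.LT.T7.H568

theorem cosh_lower122 {u : ℝ} (hu : 0 ≤ u) : 1 + u ^ 2 / 4 ≤ Real.cosh u := by
  have h1 := Real.quadratic_le_exp_of_nonneg hu
  have h2 := Real.add_one_le_exp (-u)
  rw [Real.cosh_eq]
  linarith

theorem besselK0_nonneg122 (t : ℝ) : 0 ≤ besselK0 t := by
  unfold besselK0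
  exact setIntegral_nonneg measurableSet_Ioi (fun u _ => (Real.exp_pos _).le)

theorem besselK0_le122 {t : ℝ} (ht : 0 < t) :
    besselK0 t ≤ Real.exp (-t) * Real.sqrt (Real.pi / t) := by
  unfold besselK0
  have ht4 : 0 < t / 4 := by positivity
  have hg : IntegrableOn (fun u : ℝ => Real.exp (-t) * Real.exp (-(t / 4) * u ^ 2)) (Ioi 0) :=
    ((integrable_exp_neg_mul_sq ht4).const_mul _).integrableOn
  have hle : ∫ u in Ioi (0 : ℝ), Real.exp (-t * Real.cosh u)
      ≤ ∫ u in Ioi (0 : ℝ), Real.exp (-t) * Real.exp (-(t / 4) * u ^ 2) := by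
    apply integral_mono_of_nonneg
    · exact Filter.Eventually.of_forall (fun u => (Real.exp_pos _).le)
    · exact hg
    · refine (ae_restrict_iff' measurableSet_Ioi).2 (Filter.Eventually.of_forall fun u hu => ?_)
      show Real.exp (-t * Real.cosh u) ≤ Real.exp (-t) * Real.exp (-(t / 4) * u ^ 2)
      rw [← Real.exp_add]
      apply Real.exp_le_exp.2
      have := cosh_lower122 (le_of_lt hu)
      nlinarith
  refine hle.trans (le_of_eq ?_)
  rw [integral_const_mul, integral_gaussian_Ioi]
  have e1 : Real.pi / (t / 4) = 2 ^ 2 * (Real.pi / t) := by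
    field_simp
    ring
  rw [e1, Real.sqrt_mul (by positivity), Real.sqrt_sq (by norm_num)]
  ring

theorem besselK0_sq_mul_le122 {c r : ℝ} (hc : 0 < c) (hr : 0 < r) :
    besselK0 (c * r) ^ 2 / r * r ^ 2 ≤ Real.pi / c * Real.exp (-(2 * c) * r) := by
  have hcr : 0 < c * r := mul_pos hc hr
  have h0 := besselK0_nonneg122 (c * r)
  have h1 := besselK0_le122 hcr
  have h2 : besselK0 (c * r) ^ 2 ≤ (Real.exp (-(c * r)) * Real.sqrt (Real.pi / (c * r))) ^ 2 :=
    pow_le_pow_left₀ h0 h1 2
  have h3 : (Real.exp (-(c * r)) * Real.sqrt (Real.pi / (c * r))) ^ 2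
      = Real.exp (-(2 * c) * r) * (Real.pi / (c * r)) := by
    rw [mul_pow, Real.sq_sqrt (by positivity), ← Real.exp_nat_mul]
    congr 2
    push_cast
    ring
  rw [h3] at h2
  have e : besselK0 (c * r) ^ 2 / r * r ^ 2 = besselK0 (c * r) ^ 2 * r := by
    field_simp
  rw [e]
  calc besselK0 (c * r) ^ 2 * r ≤ Real.exp (-(2 * c) * r) * (Real.pi / (c * r)) * r :=
        mul_le_mul_of_nonneg_right h2 hr.le
    _ = Real.pi / c * Real.exp (-(2 * c) * r) := by
        field_simp

/-- **T7.14.6c.3 ARCH-INT**, VERBATIM. -/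
theorem archIntC122 (K : Type) [Field K] [NumberField K] : ArchIntC568 K := by
  intro hK c hc T hT
  have hh : ∀ w : InfinitePlace K, Integrable
      ((Ioi (0 : ℝ)).indicator (fun x : ℝ => Real.pi / c w * Real.exp (-(2 * c w) * x)))
      volume := fun w => by
    rw [integrable_indicator_iff measurableSet_Ioi]
    exact (exp_neg_integrableOn_Ioi 0 (by have := hc w; positivity)).const_mul _
  have hG : Integrable (fun r : InfinitePlace K → ℝ =>
      ∏ w, (Ioi (0 : ℝ)).indicator (fun x : ℝ => Real.pi / c w * Real.exp (-(2 * c w) * x))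
        (r w)) volume := by
    rw [volume_pi]
    exact Integrable.fintype_prod hh
  have hG' := hG.const_mul T⁻¹
  have hmeasR : MeasurableSet (region568 (K := K) T) := by
    have e : region568 (K := K) T
        = Pos568 K ∩ {r | T ≤ ∏ w : InfinitePlace K, r w ^ w.mult} := by
      ext r
      simp [Pos568, region568]
    rw [e]
    exact measurableSet_Pos568.inter (measurableSet_le measurable_const measurable_prodMult568)
  have hFm : Measurable (fun r : InfinitePlace K → ℝ =>
      ∏ w : InfinitePlace K, besselK0 (c w * r w) ^ 2 / r w) := by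
    refine Finset.measurable_prod _ (fun w _ => ?_)
    exact ((measurable_besselK0_568.comp (measurable_const.mul (measurable_pi_apply w))).pow_const
      2).div (measurable_pi_apply w)
  refine Integrable.mono' hG'.integrableOn hFm.aestronglyMeasurable ?_
  refine (ae_restrict_iff' hmeasR).2 (Filter.Eventually.of_forall fun r hr => ?_)
  obtain ⟨hpos, hTr⟩ := hr
  have hmult : ∀ w : InfinitePlace K, w.mult = 2 := fun w => by
    simp [InfinitePlace.mult, InfinitePlace.not_isReal_iff_isComplex.2 (hK w)]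
  simp only [hmult] at hTr
  have hF0 : ∀ w : InfinitePlace K, 0 ≤ besselK0 (c w * r w) ^ 2 / r w := fun w =>
    div_nonneg (sq_nonneg _) (hpos w).le
  have hFnn : 0 ≤ ∏ w : InfinitePlace K, besselK0 (c w * r w) ^ 2 / r w :=
    Finset.prod_nonneg fun w _ => hF0 w
  rw [Real.norm_of_nonneg hFnn]
  have hind : ∀ w : InfinitePlace K,
      (Ioi (0 : ℝ)).indicator (fun x : ℝ => Real.pi / c w * Real.exp (-(2 * c w) * x)) (r w)
        = Real.pi / c w * Real.exp (-(2 * c w) * r w) := fun w =>
    indicator_of_mem (mem_Ioi.2 (hpos w)) _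
  simp only [hind]
  have hstep : (∏ w : InfinitePlace K, besselK0 (c w * r w) ^ 2 / r w)
        * ∏ w : InfinitePlace K, r w ^ 2
      ≤ ∏ w : InfinitePlace K, Real.pi / c w * Real.exp (-(2 * c w) * r w) := by
    rw [← Finset.prod_mul_distrib]
    refine Finset.prod_le_prod (fun w _ => mul_nonneg (hF0 w) (sq_nonneg _)) (fun w _ => ?_)
    exact besselK0_sq_mul_le122 (hc w) (hpos w)
  have hTinv : 0 < T⁻¹ := inv_pos.2 hT
  calc (∏ w : InfinitePlace K, besselK0 (c w * r w) ^ 2 / r w)
      = T⁻¹ * ((∏ w : InfinitePlace K, besselK0 (c w * r w) ^ 2 / r w) * T) := by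
        field_simp
    _ ≤ T⁻¹ * ((∏ w : InfinitePlace K, besselK0 (c w * r w) ^ 2 / r w)
          * ∏ w : InfinitePlace K, r w ^ 2) :=
        mul_le_mul_of_nonneg_left (mul_le_mul_of_nonneg_left hTr hFnn) hTinv.le
    _ ≤ T⁻¹ * ∏ w : InfinitePlace K, Real.pi / c w * Real.exp (-(2 * c w) * r w) :=
        mul_le_mul_of_nonneg_left hstep hTinv.le

example (K : Type) [Field K] [NumberField K] : H568.ArchIntC568 K := archIntC122 K

end Fermat.Agent.LT.T7.H122

end
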