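import Mathlib
import Fermat.Agent.LT.T7.H584.NormLocSpec

/-!
# OFF-MAIN (Langlands–Tunnell row, tower T7, leaf T7.L2.1.M.N2): `TensorSplitC584`

Closes `H584.TensorSplitC584` verbatim (spec: `LT/T7/H584/NormLocSpec.lean`).

Route: for a cyclic extension `K'/K` of prime degree `l` with generator `s` and an embedding
`τ : K' → k` over `K`, the `l` projections `x ⊗ a ↦ τ (s^m x) a` of `K' ⊗_K k` are jointly
bijective onto `k^l` (Dedekind independence of characters + dimension count), the tensor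
automorphism `s ⊗ 1` shifts the projections, and the idempotent of the `0`-th factor gives the
element whose twisted norm is the prescribed matrix.
-/

set_option autoImplicit false

open TensorProduct

noncomputable section

namespace Fermat.Agent.LT.T7.H122

section Split

variable {K K' k : Type} [Field K] [Field K'] [Field k] [Algebra K K'] [Algebra K k]

/-- The `m`-th projection `x ⊗ a ↦ τ(s^m x) a` of `K' ⊗_K k`. -/
def proj122 (s : K' ≃ₐ[K] K') (τ : K' →ₐ[K] k) (m : ℕ) : K' ⊗[K] k →ₐ[K] k :=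
  Algebra.TensorProduct.lift (τ.comp ((s ^ m : K' ≃ₐ[K] K') : K' →ₐ[K] K')) (AlgHom.id K k)
    (fun _ _ => Commute.all _ _)

theorem proj122_tmul (s : K' ≃ₐ[K] K') (τ : K' →ₐ[K] k) (m : ℕ) (x : K') (a : k) :
    proj122 s τ m (x ⊗ₜ[K] a) = τ ((s ^ m) x) * a := by
  simp [proj122]

/-- The `k`-linear form of the `m`-th projection, on `k ⊗_K K'`. -/
def projL122 (s : K' ≃ₐ[K] K') (τ : K' →ₐ[K] k) (m : ℕ) : k ⊗[K] K' →ₐ[k] k :=
  Algebra.TensorProduct.lift (AlgHom.id k k) (τ.comp ((s ^ m : K' ≃ₐ[K] K') : K' →ₐ[K] K'))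
    (fun _ _ => Commute.all _ _)

theorem projL122_tmul (s : K' ≃ₐ[K] K') (τ : K' →ₐ[K] k) (m : ℕ) (a : k) (x : K') :
    projL122 s τ m (a ⊗ₜ[K] x) = a * τ ((s ^ m) x) := by
  simp [projL122]

theorem projL122_comm (s : K' ≃ₐ[K] K') (τ : K' →ₐ[K] k) (m : ℕ) (y : K' ⊗[K] k) :
    projL122 s τ m (Algebra.TensorProduct.comm K K' k y) = proj122 s τ m y := by
  induction y using TensorProduct.induction_on with
  | zero => simp
  | tmul x a => simp [projL122_tmul, proj122_tmul, mul_comm]
  | add y z hy hz => simp [hy, hz]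

variable [FiniteDimensional K K'] [IsGalois K K']

theorem orderOf_eq122 (s : K' ≃ₐ[K] K') (l : ℕ) (hl : Module.finrank K K' = l)
    (hs : ∀ t : K' ≃ₐ[K] K', t ∈ Subgroup.zpowers s) : orderOf s = l := by
  rw [orderOf_eq_card_of_forall_mem_zpowers hs, IsGalois.card_aut_eq_finrank, hl]

theorem projL122_injOn (s : K' ≃ₐ[K] K') (l : ℕ) (hl : Module.finrank K K' = l)
    (hs : ∀ t : K' ≃ₐ[K] K', t ∈ Subgroup.zpowers s) (τ : K' →ₐ[K] k) :
    Function.Injective (fun j : Fin l => projL122 s τ (j : ℕ)) := by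
  intro i j hij
  have h1 : ∀ x : K', τ ((s ^ (i : ℕ)) x) = τ ((s ^ (j : ℕ)) x) := by
    intro x
    have := congrArg (fun f : k ⊗[K] K' →ₐ[k] k => f (1 ⊗ₜ[K] x)) hij
    simpa [projL122_tmul] using this
  have h2 : s ^ (i : ℕ) = s ^ (j : ℕ) := by
    ext x
    exact τ.toRingHom.injective (h1 x)
  have h3 := (pow_inj_mod.1 h2)
  rw [orderOf_eq122 s l hl hs] at h3
  apply Fin.ext
  rwa [Nat.mod_eq_of_lt i.2, Nat.mod_eq_of_lt j.2] at h3

theorem finrank_baseChange122 (l : ℕ) (hl : Module.finrank K K' = l) :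
    Module.finrank k (k ⊗[K] K') = l := by
  rw [Module.finrank_baseChange, hl]

/-- Joint injectivity of the projections on `k ⊗_K K'`. -/
theorem projL122_joint_inj (s : K' ≃ₐ[K] K') (l : ℕ) (hl : Module.finrank K K' = l)
    (hs : ∀ t : K' ≃ₐ[K] K', t ∈ Subgroup.zpowers s) (τ : K' →ₐ[K] k) (v : k ⊗[K] K')
    (hv : ∀ j : Fin l, projL122 s τ (j : ℕ) v = 0) : v = 0 := by
  have hli : LinearIndependent k
      (fun j : Fin l => ((projL122 s τ (j : ℕ)).toLinearMap : Module.Dual k (k ⊗[K] K'))) :=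
    (linearIndependent_algHom_toLinearMap k (k ⊗[K] K') k).comp _ (projL122_injOn s l hl hs τ)
  have hcard : Fintype.card (Fin l) = Module.finrank k (Module.Dual k (k ⊗[K] K')) := by
    rw [Fintype.card_fin, Subspace.dual_finrank_eq, finrank_baseChange122 l hl]
  have hspan := hli.span_eq_top_of_card_eq_finrank' hcard
  rw [← Module.forall_dual_apply_eq_zero_iff k v]
  intro φ
  have hφ : φ ∈ Submodule.span k (Set.range
      (fun j : Fin l => ((projL122 s τ (j : ℕ)).toLinearMap : Module.Dual k (k ⊗[K] K')))) := by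
    rw [hspan]
    exact Submodule.mem_top
  induction hφ using Submodule.span_induction with
  | mem x hx =>
    obtain ⟨j, rfl⟩ := hx
    exact hv j
  | zero => rfl
  | add x y _ _ hx hy => rw [LinearMap.add_apply, hx, hy, add_zero]
  | smul a x _ hx => rw [LinearMap.smul_apply, hx, smul_zero]

/-- The joint map of the projections. -/
def jointL122 (s : K' ≃ₐ[K] K') (τ : K' →ₐ[K] k) (l : ℕ) : k ⊗[K] K' →ₗ[k] (Fin l → k) :=
  LinearMap.pi (fun j : Fin l => (projL122 s τ (j : ℕ)).toLinearMap)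

theorem jointL122_bijective (s : K' ≃ₐ[K] K') (l : ℕ) (hl : Module.finrank K K' = l)
    (hs : ∀ t : K' ≃ₐ[K] K', t ∈ Subgroup.zpowers s) (τ : K' →ₐ[K] k) :
    Function.Bijective (jointL122 s τ l) := by
  have hinj : Function.Injective (jointL122 s τ l) := by
    rw [← LinearMap.ker_eq_bot, LinearMap.ker_eq_bot']
    intro v hv
    refine projL122_joint_inj s l hl hs τ v (fun j => ?_)
    have := congrFun hv j
    simpa [jointL122] using this
  have hfr : Module.finrank k (k ⊗[K] K') = Module.finrank k (Fin l → k) := by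
    rw [finrank_baseChange122 l hl, Module.finrank_fin_fun]
  exact ⟨hinj, (LinearMap.injective_iff_surjective_of_finrank_eq_finrank hfr).1 hinj⟩

/-- Joint injectivity of the projections on `K' ⊗_K k`. -/
theorem proj122_joint_inj (s : K' ≃ₐ[K] K') (l : ℕ) (hl : Module.finrank K K' = l)
    (hs : ∀ t : K' ≃ₐ[K] K', t ∈ Subgroup.zpowers s) (τ : K' →ₐ[K] k) (y y' : K' ⊗[K] k)
    (h : ∀ j : ℕ, j < l → proj122 s τ j y = proj122 s τ j y') : y = y' := by
  apply (Algebra.TensorProduct.comm K K' k).injective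
  apply (jointL122_bijective s l hl hs τ).1
  funext j
  show projL122 s τ (j : ℕ) _ = projL122 s τ (j : ℕ) _
  rw [projL122_comm, projL122_comm]
  exact h j j.2

/-- Existence of an element with prescribed projections. -/
theorem proj122_surj (s : K' ≃ₐ[K] K') (l : ℕ) (hl : Module.finrank K K' = l)
    (hs : ∀ t : K' ≃ₐ[K] K', t ∈ Subgroup.zpowers s) (τ : K' →ₐ[K] k) (f : Fin l → k) :
    ∃ y : K' ⊗[K] k, ∀ j : Fin l, proj122 s τ (j : ℕ) y = f j := by
  obtain ⟨v, hv⟩ := (jointL122_bijective s l hl hs τ).2 f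
  refine ⟨(Algebra.TensorProduct.comm K K' k).symm v, fun j => ?_⟩
  rw [← projL122_comm, AlgEquiv.apply_symm_apply]
  exact congrFun hv j

end Split

/-! ## The shift and the inclusion -/

section Shift

variable {K K' k : Type} [Field K] [Field K'] [Field k] [Algebra K K'] [Algebra K k]

/-- The projections as ring homomorphisms. -/
def projR122 (s : K' ≃ₐ[K] K') (τ : K' →ₐ[K] k) (m : ℕ) : K' ⊗[K] k →+* k :=
  (proj122 s τ m).toRingHom

theorem projR122_apply (s : K' ≃ₐ[K] K') (τ : K' →ₐ[K] k) (m : ℕ) (y : K' ⊗[K] k) :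
    projR122 s τ m y = proj122 s τ m y := rfl

theorem proj122_aut (s : K' ≃ₐ[K] K') (τ : K' →ₐ[K] k) (m : ℕ) (y : K' ⊗[K] k) :
    proj122 s τ m (H584.tensorAut584 s y) = proj122 s τ (m + 1) y := by
  show proj122 s τ m (Algebra.TensorProduct.congr s (AlgEquiv.refl : k ≃ₐ[K] k) y) = _
  induction y using TensorProduct.induction_on with
  | zero => simp
  | tmul x a =>
    rw [Algebra.TensorProduct.congr_apply, Algebra.TensorProduct.map_tmul, proj122_tmul,
      proj122_tmul, pow_succ]
    rfl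
  | add y z hy hz => rw [map_add, map_add, hy, hz, map_add]

theorem proj122_incl (s : K' ≃ₐ[K] K') (τ : K' →ₐ[K] k) (m : ℕ) (a : k) :
    proj122 s τ m (H584.tensorIncl584 K K' k a) = a := by
  have e : H584.tensorIncl584 K K' k a = (1 : K') ⊗ₜ[K] a := rfl
  rw [e, proj122_tmul, map_one, map_one, one_mul]

theorem proj122_mod (s : K' ≃ₐ[K] K') (τ : K' →ₐ[K] k) (l : ℕ) (hord : orderOf s = l)
    (m : ℕ) : proj122 s τ m = proj122 s τ (m % l) := by
  have h : s ^ m = s ^ (m % l) := by rw [← hord, pow_mod_orderOf]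
  apply Algebra.TensorProduct.ext'
  intro x a
  rw [proj122_tmul, proj122_tmul, h]

end Shift

/-! ## Matrices -/

section GLTwo

variable {R S : Type} [CommRing R] [CommRing S]

/-- `e γ + (1 - e)` for an idempotent `e`. -/
def idemGL122 (e : R) (he : e * e = e) (g : GL (Fin 2) R) : GL (Fin 2) R where
  val := e • (g : Matrix (Fin 2) (Fin 2) R) + (1 - e) • (1 : Matrix (Fin 2) (Fin 2) R)
  inv := e • ((g⁻¹ : GL (Fin 2) R) : Matrix (Fin 2) (Fin 2) R)
    + (1 - e) • (1 : Matrix (Fin 2) (Fin 2) R)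
  val_inv := by
    have h1 : (g : Matrix (Fin 2) (Fin 2) R) * ((g⁻¹ : GL (Fin 2) R) : Matrix (Fin 2) (Fin 2) R)
        = 1 := by rw [← Units.val_mul, mul_inv_cancel, Units.val_one]
    have h2 : e * (1 - e) = 0 := by rw [mul_sub, mul_one, he, sub_self]
    have h3 : (1 - e) * e = 0 := by rw [mul_comm, h2]
    have h4 : (1 - e) * (1 - e) = 1 - e := by rw [sub_mul, one_mul, h2, sub_zero]
    simp only [add_mul, mul_add, Matrix.smul_mul, Matrix.mul_smul, smul_smul, Matrix.one_mul,
      Matrix.mul_one, h1, he, h2, h3, h4, zero_smul, add_zero, zero_add]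
    rw [← add_smul, add_sub_cancel, one_smul]
  inv_val := by
    have h1 : ((g⁻¹ : GL (Fin 2) R) : Matrix (Fin 2) (Fin 2) R) * (g : Matrix (Fin 2) (Fin 2) R)
        = 1 := by rw [← Units.val_mul, inv_mul_cancel, Units.val_one]
    have h2 : e * (1 - e) = 0 := by rw [mul_sub, mul_one, he, sub_self]
    have h3 : (1 - e) * e = 0 := by rw [mul_comm, h2]
    have h4 : (1 - e) * (1 - e) = 1 - e := by rw [sub_mul, one_mul, h2, sub_zero]
    simp only [add_mul, mul_add, Matrix.smul_mul, Matrix.mul_smul, smul_smul, Matrix.one_mul,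
      Matrix.mul_one, h1, he, h2, h3, h4, zero_smul, add_zero, zero_add]
    rw [← add_smul, add_sub_cancel, one_smul]

theorem idemGL122_apply (e : R) (he : e * e = e) (g : GL (Fin 2) R) (a b : Fin 2) :
    (idemGL122 e he g) a b = e * g a b + (1 - e) * (1 : Matrix (Fin 2) (Fin 2) R) a b := rfl

theorem map_idemGL122_one (f : R →+* S) (e : R) (he : e * e = e) (g : GL (Fin 2) R)
    (hf : f e = 1) :
    Matrix.GeneralLinearGroup.map f (idemGL122 e he g) = Matrix.GeneralLinearGroup.map f g := by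
  apply Units.ext
  ext a b
  show f ((idemGL122 e he g) a b) = f (g a b)
  rw [idemGL122_apply, map_add, map_mul, map_mul, map_sub, map_one, hf, sub_self, zero_mul,
    add_zero, one_mul]

theorem map_idemGL122_zero (f : R →+* S) (e : R) (he : e * e = e) (g : GL (Fin 2) R)
    (hf : f e = 0) :
    Matrix.GeneralLinearGroup.map f (idemGL122 e he g) = 1 := by
  apply Units.ext
  ext a b
  show f ((idemGL122 e he g) a b) = (1 : Matrix (Fin 2) (Fin 2) S) a b
  rw [idemGL122_apply, map_add, map_mul, map_mul, map_sub, map_one, hf, sub_zero, zero_mul,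
    zero_add, one_mul]
  by_cases hab : a = b
  · subst hab
    simp
  · simp [Matrix.one_apply_ne hab]

end GLTwo

/-! ## The twisted norm -/

section Final

variable {K K' k : Type} [Field K] [Field K'] [Field k] [Algebra K K'] [Algebra K k]

theorem map_proj_glAut122 (s : K' ≃ₐ[K] K') (τ : K' →ₐ[K] k) (m : ℕ)
    (g : GL (Fin 2) (K' ⊗[K] k)) :
    Matrix.GeneralLinearGroup.map (projR122 s τ m) (T6.glAut (H584.tensorAut584 s) g)
      = Matrix.GeneralLinearGroup.map (projR122 s τ (m + 1)) g := by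
  apply Units.ext
  ext a b
  exact proj122_aut s τ m (g a b)

theorem map_proj_twN_succ122 (s : K' ≃ₐ[K] K') (τ : K' →ₐ[K] k) (m n : ℕ)
    (δ : GL (Fin 2) (K' ⊗[K] k)) :
    Matrix.GeneralLinearGroup.map (projR122 s τ m)
        (T6.twN (T6.glAut (H584.tensorAut584 s)) (n + 1) δ)
      = Matrix.GeneralLinearGroup.map (projR122 s τ m) δ
        * Matrix.GeneralLinearGroup.map (projR122 s τ (m + 1))
            (T6.twN (T6.glAut (H584.tensorAut584 s)) n δ) := by
  rw [T6.twN, map_mul, map_proj_glAut122]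

theorem twN_ones122 (s : K' ≃ₐ[K] K') (τ : K' →ₐ[K] k) (D : ℕ → GL (Fin 2) k)
    (δ : GL (Fin 2) (K' ⊗[K] k))
    (hD : ∀ m, Matrix.GeneralLinearGroup.map (projR122 s τ m) δ = D m) (n : ℕ) :
    ∀ m : ℕ, (∀ i, i < n → D (m + i) = 1) →
      Matrix.GeneralLinearGroup.map (projR122 s τ m)
        (T6.twN (T6.glAut (H584.tensorAut584 s)) n δ) = 1 := by
  induction n with
  | zero =>
    intro m _
    rw [T6.twN]
    exact map_one _
  | succ n ih =>
    intro m h
    rw [map_proj_twN_succ122, hD, ih (m + 1) (fun i hi => by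
      have := h (i + 1) (by omega)
      rwa [show m + (i + 1) = m + 1 + i by ring] at this), mul_one]
    simpa using h 0 (by omega)

theorem twN_hit122 (s : K' ≃ₐ[K] K') (τ : K' →ₐ[K] k) (D : ℕ → GL (Fin 2) k)
    (δ : GL (Fin 2) (K' ⊗[K] k))
    (hD : ∀ m, Matrix.GeneralLinearGroup.map (projR122 s τ m) δ = D m) (γ : GL (Fin 2) k)
    (n : ℕ) :
    ∀ m : ℕ, (∃ i, i < n ∧ D (m + i) = γ ∧ ∀ i', i' < n → i' ≠ i → D (m + i') = 1) →
      Matrix.GeneralLinearGroup.map (projR122 s τ m)
        (T6.twN (T6.glAut (H584.tensorAut584 s)) n δ) = γ := by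
  induction n with
  | zero =>
    rintro m ⟨i, hi, -⟩
    omega
  | succ n ih =>
    rintro m ⟨i, hi, hγ, huniq⟩
    rw [map_proj_twN_succ122, hD]
    cases i with
    | zero =>
      rw [Nat.add_zero] at hγ
      rw [hγ, twN_ones122 s τ D δ hD n (m + 1) (fun i' hi' => by
        have := huniq (i' + 1) (by omega) (Nat.succ_ne_zero i')
        rwa [show m + (i' + 1) = m + 1 + i' by ring] at this), mul_one]
    | succ i₀ =>
      have h0 : D m = 1 := by
        have := huniq 0 (by omega) (Nat.succ_ne_zero i₀).symm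
        rwa [Nat.add_zero] at this
      rw [h0, one_mul]
      refine ih (m + 1) ⟨i₀, by omega, ?_, fun i' hi' hne => ?_⟩
      · rwa [show m + (i₀ + 1) = m + 1 + i₀ by ring] at hγ
      · have := huniq (i' + 1) (by omega) (by omega)
        rwa [show m + (i' + 1) = m + 1 + i' by ring] at this

theorem eq_zero_or_eq_of_dvd122 {l t : ℕ} (h : l ∣ t) (ht : t < 2 * l) : t = 0 ∨ t = l := by
  obtain ⟨c, rfl⟩ := h
  have hl : 0 < l := by
    rcases Nat.eq_zero_or_pos l with h0 | h0
    · subst h0
      omega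
    · exact h0
  have hc : c < 2 := by
    by_contra hc
    have hc' : 2 ≤ c := Nat.le_of_not_lt hc
    have : l * 2 ≤ l * c := Nat.mul_le_mul_left l hc'
    omega
  interval_cases c
  · left
    simp
  · right
    simp

end Final

/-- **T7.L2.1.M.N2 TENSOR-SPLIT**, VERBATIM. -/
theorem tensorSplitC122 : H584.TensorSplitC584 := by
  intro K K' k _ _ _ _ _ _ _ s l hl hs τ γ
  have hord := orderOf_eq122 s l hl hs
  have hlpos : 0 < l := by
    rw [← hl]
    exact Module.finrank_pos
  obtain ⟨e, he⟩ := proj122_surj s l hl hs τ (fun j => if (j : ℕ) = 0 then 1 else 0)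
  have hem : ∀ m, proj122 s τ m e = if l ∣ m then 1 else 0 := by
    intro m
    rw [proj122_mod s τ l hord m]
    have h1 := he ⟨m % l, Nat.mod_lt m hlpos⟩
    simp only at h1
    rw [h1]
    by_cases hm : l ∣ m
    · rw [if_pos hm, if_pos (Nat.eq_zero_of_dvd_of_lt (by
        exact (Nat.dvd_mod_iff (dvd_refl l)).2 hm) (Nat.mod_lt m hlpos))]
    · rw [if_neg hm, if_neg]
      intro h0
      exact hm (Nat.dvd_of_mod_eq_zero h0)
  have hidem : e * e = e := by
    apply proj122_joint_inj s l hl hs τ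
    intro j _
    rw [map_mul, hem]
    split_ifs <;> simp
  refine ⟨idemGL122 e hidem (Matrix.GeneralLinearGroup.map (H584.tensorIncl584 K K' k) γ), ?_⟩
  have hincl : ∀ m, Matrix.GeneralLinearGroup.map (projR122 s τ m)
      (Matrix.GeneralLinearGroup.map (H584.tensorIncl584 K K' k) γ) = γ := by
    intro m
    apply Units.ext
    ext a b
    exact proj122_incl s τ m (γ a b)
  have hD : ∀ m, Matrix.GeneralLinearGroup.map (projR122 s τ m)
      (idemGL122 e hidem (Matrix.GeneralLinearGroup.map (H584.tensorIncl584 K K' k) γ))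
        = if l ∣ m then γ else 1 := by
    intro m
    by_cases hm : l ∣ m
    · rw [if_pos hm, map_idemGL122_one _ _ _ _ (by rw [projR122_apply, hem, if_pos hm]), hincl]
    · rw [if_neg hm, map_idemGL122_zero _ _ _ _ (by rw [projR122_apply, hem, if_neg hm])]
  apply Units.ext
  ext a b
  apply proj122_joint_inj s l hl hs τ
  intro j hj
  have h1 : Matrix.GeneralLinearGroup.map (projR122 s τ j)
      (T6.twNorm (H584.tensorAut584 s) l
        (idemGL122 e hidem (Matrix.GeneralLinearGroup.map (H584.tensorIncl584 K K' k) γ)))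
      = γ := by
    unfold T6.twNorm
    apply twN_hit122 s τ (fun m => if l ∣ m then γ else 1) _ hD γ l j
    by_cases hj0 : j = 0
    · subst hj0
      refine ⟨0, hlpos, by simp, fun i' hi' hne => ?_⟩
      have : ¬ l ∣ 0 + i' := by
        intro hd
        rcases eq_zero_or_eq_of_dvd122 hd (by omega) with h | h <;> omega
      simp only [if_neg this]
    · refine ⟨l - j, by omega, ?_, fun i' hi' hne => ?_⟩
      · have : l ∣ j + (l - j) := by
          rw [show j + (l - j) = l by omega]
        simp only [if_pos this]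
      · have : ¬ l ∣ j + i' := by
          intro hd
          rcases eq_zero_or_eq_of_dvd122 hd (by omega) with h | h <;> omega
        simp only [if_neg this]
  have h2 := hincl j
  have e1 := congrArg (fun g : GL (Fin 2) k => g a b) h1
  have e2 := congrArg (fun g : GL (Fin 2) k => g a b) h2
  exact e1.trans e2.symm

example : H584.TensorSplitC584 := tensorSplitC122

end Fermat.Agent.LT.T7.H122

end
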